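/-
Fermat/Agent/MAZ/SelIneq5/Count.lean  (helper5)

Programme MAZ (S15), brick (INEQ) of memo #2 (report 953), formalism-free counting core.

For an exact piece
  `0 → A' -f→ A -g→ A'' -d→ H' -i→ H -π→ H''`
of abelian groups (`A` finite), subgroups `S' ≤ H'`, `S ≤ H`, `S'' ≤ H''` with `π(S) ≤ S''`:

* `card_mul_le_of_exact` : if `B := i⁻¹(S)` is finite with `|B| ≤ |S'| * D` then
    `|S| * |A'| * |A''| ≤ |S'| * |S''| * D * |A|`;
* `card_comap_le_of_ker_le` : if `ρ : H' →+ E` has `ker ρ ∩ B ≤ S'` and `ρ(B) ≤ T` (`T` finite)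
    then `B` is finite and `|B| ≤ |S'| * |T|`;
* `card_mul_le_of_exact_of_defect` : the combination.

Everything is `Nat.card`, Mathlib only.
-/
import Mathlib

set_option autoImplicit false
set_option linter.style.haveILetI false

namespace Fermat.Agent.MAZ.SelIneq5.Count

variable {A' A A'' H' H H'' : Type*} [AddCommGroup A'] [AddCommGroup A] [AddCommGroup A'']
  [AddCommGroup H'] [AddCommGroup H] [AddCommGroup H'']

/-- `|ker f| * |range f| = |G|`. -/
theorem card_ker_mul_card_range {G G' : Type*} [AddGroup G] [AddGroup G'] (f : G →+ G') :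
    Nat.card f.ker * Nat.card f.range = Nat.card G := by
  rw [← AddSubgroup.index_ker]
  exact AddSubgroup.card_mul_index f.ker

/-- `|S| ≤ |S ⊓ ker π| * |S''|` when `π` maps the finite... subgroup `S` into `S''`. -/
theorem card_le_card_inf_ker_mul {π : H →+ H''} {S : AddSubgroup H} {S'' : AddSubgroup H''}
    [Finite S''] (hπ : ∀ x ∈ S, π x ∈ S'') :
    Nat.card S ≤ Nat.card (S ⊓ π.ker : AddSubgroup H) * Nat.card S'' := by
  -- the restriction `S →+ S''`
  let φ : S →+ S'' := (π.comp S.subtype).codRestrict S'' fun x => hπ x.1 x.2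
  have h1 := card_ker_mul_card_range φ
  have h2 : Nat.card φ.range ≤ Nat.card S'' :=
    Nat.card_le_card_of_injective _ (AddSubgroup.subtype_injective _) |>.trans (le_of_eq rfl)
  have h3 : Nat.card φ.ker = Nat.card (S ⊓ π.ker : AddSubgroup H) := by
    refine Nat.card_congr
      { toFun := fun x => ⟨x.1.1, x.1.2, ?_⟩
        invFun := fun y => ⟨⟨y.1, y.2.1⟩, ?_⟩
        left_inv := fun x => rfl
        right_inv := fun y => rfl }
    · have hx : φ x.1 = 0 := x.2
      have : ((φ x.1 : S'') : H'') = 0 := by rw [hx]; rfl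
      exact this
    · have hy : π y.1 = 0 := y.2.2
      exact Subtype.ext hy
  calc Nat.card S = Nat.card φ.ker * Nat.card φ.range := h1.symm
    _ ≤ Nat.card (S ⊓ π.ker : AddSubgroup H) * Nat.card S'' := by
      rw [h3]; exact Nat.mul_le_mul_left _ h2

variable (f : A' →+ A) (g : A →+ A'') (d : A'' →+ H') (i : H' →+ H) (π : H →+ H'')

/-- `|ker i| * |A| = |A'| * |A''|` for an exact piece `0 → A' → A → A'' → H' -i→ H`. -/
theorem card_ker_mul_card [Finite A] [Finite A'']
    (hf : Function.Injective f) (hfg : g.ker = f.range) (hgd : d.ker = g.range)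
    (hdi : i.ker = d.range) :
    Nat.card i.ker * Nat.card A = Nat.card A' * Nat.card A'' := by
  have h1 := card_ker_mul_card_range g
  have h2 := card_ker_mul_card_range d
  have h3 : Nat.card f.range = Nat.card A' :=
    (Nat.card_congr (Equiv.ofInjective f hf)).symm
  rw [hfg, h3] at h1
  rw [hgd, ← hdi] at h2
  -- h1 : |A'| * |range g| = |A| ; h2 : |range g| * |ker i| = |A''|
  calc Nat.card i.ker * Nat.card A
      = Nat.card i.ker * (Nat.card A' * Nat.card g.range) := by rw [h1]
    _ = Nat.card A' * (Nat.card g.range * Nat.card i.ker) := by ring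
    _ = Nat.card A' * Nat.card A'' := by rw [h2]

/-- The kernel of `π` inside `S` is the image of `B = i⁻¹(S)`; its cardinality times `|ker i|`
is `|B|`. -/
theorem card_inf_ker_mul_card_ker (hiπ : π.ker = i.range) (S : AddSubgroup H) :
    Nat.card (S ⊓ π.ker : AddSubgroup H) * Nat.card i.ker = Nat.card (S.comap i) := by
  -- restriction of `i` to `B`
  let B : AddSubgroup H' := S.comap i
  let ψ : B →+ H := i.comp B.subtype
  have h1 := card_ker_mul_card_range ψ
  have hker : Nat.card ψ.ker = Nat.card i.ker := by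
    refine Nat.card_congr
      { toFun := fun x => ⟨x.1.1, x.2⟩
        invFun := fun y => ⟨⟨y.1, ?_⟩, ?_⟩
        left_inv := fun x => rfl
        right_inv := fun y => rfl }
    · show i y.1 ∈ S
      have hy : i y.1 = 0 := y.2
      rw [hy]; exact S.zero_mem
    · exact y.2
  have hrange : ψ.range = S ⊓ π.ker := by
    ext x
    constructor
    · rintro ⟨b, rfl⟩
      refine ⟨b.2, ?_⟩
      rw [hiπ]
      exact ⟨b.1, rfl⟩
    · rintro ⟨hxS, hxπ⟩
      rw [hiπ] at hxπ
      obtain ⟨b, rfl⟩ := hxπ
      exact ⟨⟨b, hxS⟩, rfl⟩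
  rw [hker, hrange] at h1
  rw [mul_comm]
  exact h1

/-- **Counting core of (INEQ), numeric form.** -/
theorem card_mul_le_of_exact [Finite A] [Finite A'']
    (hf : Function.Injective f) (hfg : g.ker = f.range) (hgd : d.ker = g.range)
    (hdi : i.ker = d.range) (hiπ : π.ker = i.range)
    (S' : AddSubgroup H') (S : AddSubgroup H) (S'' : AddSubgroup H'') [Finite S'']
    (hπ : ∀ x ∈ S, π x ∈ S'') (D : ℕ)
    (hB : Nat.card (S.comap i) ≤ Nat.card S' * D) :
    Nat.card S * Nat.card A' * Nat.card A'' ≤ Nat.card S' * Nat.card S'' * D * Nat.card A := by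
  have h1 := card_le_card_inf_ker_mul (π := π) (S := S) (S'' := S'') hπ
  have h2 := card_ker_mul_card f g d i hf hfg hgd hdi
  have h3 := card_inf_ker_mul_card_ker i π hiπ S
  calc Nat.card S * Nat.card A' * Nat.card A''
      = Nat.card S * (Nat.card A' * Nat.card A'') := by ring
    _ = Nat.card S * (Nat.card i.ker * Nat.card A) := by rw [h2]
    _ ≤ (Nat.card (S ⊓ π.ker : AddSubgroup H) * Nat.card S'') *
          (Nat.card i.ker * Nat.card A) := Nat.mul_le_mul_right _ h1
    _ = (Nat.card (S ⊓ π.ker : AddSubgroup H) * Nat.card i.ker) * Nat.card S'' * Nat.card A := by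
        ring
    _ = Nat.card (S.comap i) * Nat.card S'' * Nat.card A := by rw [h3]
    _ ≤ (Nat.card S' * D) * Nat.card S'' * Nat.card A :=
        Nat.mul_le_mul_right _ (Nat.mul_le_mul_right _ hB)
    _ = Nat.card S' * Nat.card S'' * D * Nat.card A := by ring

/-- **Bounding `B`**: if `ρ : H' →+ E` satisfies `B ⊓ ker ρ ≤ S'` and `ρ(B) ≤ T` with `S'`, `T`
finite, then `B` is finite and `|B| ≤ |S'| * |T|`. -/
theorem card_le_of_ker_le {E : Type*} [AddCommGroup E] (ρ : H' →+ E) (B S' : AddSubgroup H')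
    (T : AddSubgroup E) [Finite S'] [Finite T]
    (hker : ∀ x ∈ B, ρ x = 0 → x ∈ S') (hT : ∀ x ∈ B, ρ x ∈ T) :
    Finite B ∧ Nat.card B ≤ Nat.card S' * Nat.card T := by
  let φ : B →+ T := (ρ.comp B.subtype).codRestrict T fun x => hT x.1 x.2
  -- the kernel injects into `S'`
  have hinj : Function.Injective (fun x : φ.ker => (⟨x.1.1, hker x.1.1 x.1.2 (by
      have hx : φ x.1 = 0 := x.2
      have : ((φ x.1 : T) : E) = 0 := by rw [hx]; rfl
      exact this)⟩ : S')) := by
    intro x y hxy
    have : x.1.1 = y.1.1 := congrArg (fun z : S' => (z : H')) hxy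
    exact Subtype.ext (Subtype.ext this)
  haveI hkerfin : Finite φ.ker := Finite.of_injective _ hinj
  haveI hrangefin : Finite φ.range := inferInstance
  have hBfin : Finite B := by
    -- `B` is an extension of a finite group by a finite group
    have e := QuotientAddGroup.quotientKerEquivRange φ
    haveI : Finite (B ⧸ φ.ker) := Finite.of_equiv _ e.symm.toEquiv
    exact Finite.of_addSubgroup_quotient φ.ker
  refine ⟨hBfin, ?_⟩
  have h1 := card_ker_mul_card_range φ
  have h2 : Nat.card φ.ker ≤ Nat.card S' := Nat.card_le_card_of_injective _ hinj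
  have h3 : Nat.card φ.range ≤ Nat.card T :=
    Nat.card_le_card_of_injective _ (AddSubgroup.subtype_injective _)
  calc Nat.card B = Nat.card φ.ker * Nat.card φ.range := h1.symm
    _ ≤ Nat.card S' * Nat.card T := Nat.mul_le_mul h2 h3

/-- **Counting core of (INEQ), structured form**: the defect of `B = i⁻¹(S)` over `S'` is
controlled by a homomorphism `ρ` with values in a finite group `T`. -/
theorem card_mul_le_of_exact_of_defect [Finite A] [Finite A'']
    (hf : Function.Injective f) (hfg : g.ker = f.range) (hgd : d.ker = g.range)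
    (hdi : i.ker = d.range) (hiπ : π.ker = i.range)
    (S' : AddSubgroup H') (S : AddSubgroup H) (S'' : AddSubgroup H'') [Finite S'] [Finite S'']
    (hπ : ∀ x ∈ S, π x ∈ S'')
    {E : Type*} [AddCommGroup E] (ρ : H' →+ E) (T : AddSubgroup E) [Finite T]
    (hker : ∀ x : H', i x ∈ S → ρ x = 0 → x ∈ S') (hT : ∀ x : H', i x ∈ S → ρ x ∈ T) :
    Nat.card S * Nat.card A' * Nat.card A'' ≤
      Nat.card S' * Nat.card S'' * Nat.card T * Nat.card A :=
  card_mul_le_of_exact f g d i π hf hfg hgd hdi hiπ S' S S'' hπ (Nat.card T)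
    (card_le_of_ker_le ρ (S.comap i) S' T (fun x hx => hker x hx) (fun x hx => hT x hx)).2

/-- Finiteness of `S` in the situation of `card_mul_le_of_exact_of_defect`. -/
theorem finite_of_exact_of_defect
    (hiπ : π.ker = i.range)
    (S' : AddSubgroup H') (S : AddSubgroup H) (S'' : AddSubgroup H'') [Finite S'] [Finite S'']
    (hπ : ∀ x ∈ S, π x ∈ S'')
    {E : Type*} [AddCommGroup E] (ρ : H' →+ E) (T : AddSubgroup E) [Finite T]
    (hker : ∀ x : H', i x ∈ S → ρ x = 0 → x ∈ S') (hT : ∀ x : H', i x ∈ S → ρ x ∈ T) :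
    Finite S := by
  haveI hB : Finite (S.comap i) :=
    (card_le_of_ker_le ρ (S.comap i) S' T (fun x hx => hker x hx) (fun x hx => hT x hx)).1
  -- `S` is an extension of a subgroup of `S''` by the image of `B`
  let φ : S →+ S'' := (π.comp S.subtype).codRestrict S'' fun x => hπ x.1 x.2
  have hkerfin : Finite φ.ker := by
    -- `ker φ` is the image of `B`
    let ψ : S.comap i → φ.ker := fun b => ⟨⟨i b.1, b.2⟩, by
      show φ ⟨i b.1, b.2⟩ = 0
      apply Subtype.ext
      show π (i b.1) = 0
      have : i b.1 ∈ π.ker := by rw [hiπ]; exact ⟨b.1, rfl⟩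
      exact this⟩
    have hsurj : Function.Surjective ψ := by
      rintro ⟨⟨x, hxS⟩, hx⟩
      have hx0 : π x = 0 := congrArg Subtype.val hx
      have : x ∈ i.range := by rw [← hiπ]; exact hx0
      obtain ⟨b, rfl⟩ := this
      exact ⟨⟨b, hxS⟩, rfl⟩
    exact Finite.of_surjective ψ hsurj
  have e := QuotientAddGroup.quotientKerEquivRange φ
  haveI : Finite (S ⧸ φ.ker) := Finite.of_equiv _ e.symm.toEquiv
  exact Finite.of_addSubgroup_quotient φ.ker

end Fermat.Agent.MAZ.SelIneq5.Count
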