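/-
Fermat/Agent/MAZ/SelIneq5/Abstract.lean  (helper5)

Programme MAZ (S15), brick F-INEQ, part (b): **the devissage inequality (INEQ) as an induction
along a filtration**, in multiplicative (cardinality) form, for an abstract class of objects.

Objects `G : Obj` carry four positive numbers
  `card G = |G|`, `h0 G = |G^Γ|`, `hI G = |G^{I_p}|`, `hS G = |H¹_S(G)|`.
A relation `Ext G' G G''` ("`0 → G' → G → G'' → 0` is exact") is required to satisfy
  `card G = card G' * card G''`   and the ONE-STEP inequality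
  `hS G * h0 G' * h0 G'' * hI G ≤ hS G' * hS G'' * h0 G * hI G' * hI G''`
(= `Count.card_mul_le_of_exact_of_defect` with `|T| * |G^I| = |G'^I| * |G''^I|`, see `step_of_defect`).
`Built r triv cyc a G` : `G` is obtained from simple objects (`triv`: trivial, `cyc`: cyclotomic)
by successive extensions, with `a` trivial factors.  Then

  **(INEQ)**  `hS G * r ^ a * hI G ≤ h0 G * card G`,

i.e. `h¹_S(G) - h⁰(G) ≤ δ(G) - α(G)` with `r^δ(G) = |G| / |G^{I_p}|`, as soon as it holds for the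
simple objects.  Corollary `hS_le` : the bound on `|H¹_S(G)|` used for (SEL).
-/
import Mathlib
import Fermat.Agent.MAZ.SelIneq5.Count

set_option autoImplicit false

namespace Fermat.Agent.MAZ.SelIneq5.Abstract

/-- The numerical data of a Selmer theory on a class of objects. -/
structure SelCount (Obj : Type*) where
  /-- `|G|` -/
  card : Obj → ℕ
  /-- `|G^Γ|` -/
  h0 : Obj → ℕ
  /-- `|G^{I_p}|` -/
  hI : Obj → ℕ
  /-- `|H¹_S(G)|` -/
  hS : Obj → ℕ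
  /-- "`0 → G' → G → G'' → 0` is exact" -/
  Ext : Obj → Obj → Obj → Prop
  card_pos : ∀ G, 0 < card G
  h0_pos : ∀ G, 0 < h0 G
  hI_pos : ∀ G, 0 < hI G
  card_ext : ∀ {G' G G''}, Ext G' G G'' → card G = card G' * card G''
  step : ∀ {G' G G''}, Ext G' G G'' →
    hS G * h0 G' * h0 G'' * hI G ≤ hS G' * hS G'' * h0 G * hI G' * hI G''

/-- The one-step inequality from the output of `Count.card_mul_le_of_exact_of_defect`
(`hcount`) and the count of the defect group (`hdefect`). -/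
theorem step_of_defect {s s' s'' a a' a'' i i' i'' t : ℕ} (ht : 0 < t)
    (hcount : s * a' * a'' ≤ s' * s'' * t * a) (hdefect : t * i = i' * i'') :
    s * a' * a'' * i ≤ s' * s'' * a * i' * i'' := by
  have h1 : s * a' * a'' * i * t ≤ s' * s'' * a * i' * i'' * t := by
    calc s * a' * a'' * i * t = (s * a' * a'') * (t * i) := by ring
      _ ≤ (s' * s'' * t * a) * (t * i) := Nat.mul_le_mul_right _ hcount
      _ = s' * s'' * a * (t * i) * t := by ring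
      _ = s' * s'' * a * (i' * i'') * t := by rw [hdefect]
      _ = s' * s'' * a * i' * i'' * t := by ring
  exact Nat.le_of_mul_le_mul_right h1 ht

variable {Obj : Type*} (𝒮 : SelCount Obj)

/-- `Built r triv cyc a G`: `G` has a filtration whose graded pieces are simple objects of the two
kinds `triv` (trivial) and `cyc` (cyclotomic), exactly `a` of them trivial. -/
inductive Built (triv cyc : Obj → Prop) : ℕ → Obj → Prop
  | triv {G : Obj} (h : triv G) : Built triv cyc 1 G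
  | cyc {G : Obj} (h : cyc G) : Built triv cyc 0 G
  | ext {G' G G'' : Obj} {a' a'' : ℕ} (hE : 𝒮.Ext G' G G'') (h' : Built triv cyc a' G')
      (h'' : Built triv cyc a'' G'') : Built triv cyc (a' + a'') G

/-- **(INEQ), multiplicative form.** -/
theorem ineq (r : ℕ) {triv cyc : Obj → Prop}
    (htriv : ∀ G, triv G → 𝒮.hS G * r * 𝒮.hI G ≤ 𝒮.h0 G * 𝒮.card G)
    (hcyc : ∀ G, cyc G → 𝒮.hS G * 𝒮.hI G ≤ 𝒮.h0 G * 𝒮.card G)
    {a : ℕ} {G : Obj} (hG : Built 𝒮 triv cyc a G) :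
    𝒮.hS G * r ^ a * 𝒮.hI G ≤ 𝒮.h0 G * 𝒮.card G := by
  induction hG with
  | triv h => simpa using htriv _ h
  | cyc h => simpa using hcyc _ h
  | @ext G' G G'' a' a'' hE _ _ ih' ih'' =>
    have hstep := 𝒮.step hE
    have hcard := 𝒮.card_ext hE
    have hpos : 0 < 𝒮.h0 G' * 𝒮.h0 G'' * (𝒮.hI G' * 𝒮.hI G'') :=
      Nat.mul_pos (Nat.mul_pos (𝒮.h0_pos G') (𝒮.h0_pos G''))
        (Nat.mul_pos (𝒮.hI_pos G') (𝒮.hI_pos G''))
    -- multiply the goal by `h0 G' * h0 G'' * (hI G' * hI G'')`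
    apply Nat.le_of_mul_le_mul_right _ hpos
    calc 𝒮.hS G * r ^ (a' + a'') * 𝒮.hI G * (𝒮.h0 G' * 𝒮.h0 G'' * (𝒮.hI G' * 𝒮.hI G''))
        = (𝒮.hS G * 𝒮.h0 G' * 𝒮.h0 G'' * 𝒮.hI G) *
            (r ^ a' * r ^ a'' * (𝒮.hI G' * 𝒮.hI G'')) := by
          rw [pow_add]; ring
      _ ≤ (𝒮.hS G' * 𝒮.hS G'' * 𝒮.h0 G * 𝒮.hI G' * 𝒮.hI G'') *
            (r ^ a' * r ^ a'' * (𝒮.hI G' * 𝒮.hI G'')) := Nat.mul_le_mul_right _ hstep
      _ = (𝒮.hS G' * r ^ a' * 𝒮.hI G') * (𝒮.hS G'' * r ^ a'' * 𝒮.hI G'') *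
            (𝒮.h0 G * (𝒮.hI G' * 𝒮.hI G'')) := by ring
      _ ≤ (𝒮.h0 G' * 𝒮.card G') * (𝒮.h0 G'' * 𝒮.card G'') *
            (𝒮.h0 G * (𝒮.hI G' * 𝒮.hI G'')) :=
          Nat.mul_le_mul_right _ (Nat.mul_le_mul ih' ih'')
      _ = 𝒮.h0 G * 𝒮.card G * (𝒮.h0 G' * 𝒮.h0 G'' * (𝒮.hI G' * 𝒮.hI G'')) := by
          rw [hcard]; ring

/-- **The Selmer bound** in the form used for (SEL): if `|G| = r^ℓ`, `|G^{I_p}| ≥ r^i` and `G` has
`a` trivial factors with `ℓ ≤ a + i + c`, then `|H¹_S(G)| ≤ |G^Γ| * r^c`. -/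
theorem hS_le (r : ℕ) (hr : 0 < r) {triv cyc : Obj → Prop}
    (htriv : ∀ G, triv G → 𝒮.hS G * r * 𝒮.hI G ≤ 𝒮.h0 G * 𝒮.card G)
    (hcyc : ∀ G, cyc G → 𝒮.hS G * 𝒮.hI G ≤ 𝒮.h0 G * 𝒮.card G)
    {a : ℕ} {G : Obj} (hG : Built 𝒮 triv cyc a G) {ℓ i c : ℕ}
    (hcard : 𝒮.card G = r ^ ℓ) (hI : r ^ i ≤ 𝒮.hI G) (hℓ : ℓ ≤ a + i + c) :
    𝒮.hS G ≤ 𝒮.h0 G * r ^ c := by
  have h1 := ineq 𝒮 r htriv hcyc hG
  rw [hcard] at h1
  have hpos : 0 < r ^ a * r ^ i := Nat.mul_pos (pow_pos hr a) (pow_pos hr i)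
  apply Nat.le_of_mul_le_mul_right _ hpos
  calc 𝒮.hS G * (r ^ a * r ^ i) = 𝒮.hS G * r ^ a * r ^ i := by ring
    _ ≤ 𝒮.hS G * r ^ a * 𝒮.hI G := Nat.mul_le_mul_left _ hI
    _ ≤ 𝒮.h0 G * r ^ ℓ := h1
    _ ≤ 𝒮.h0 G * r ^ (a + i + c) := Nat.mul_le_mul_left _ (Nat.pow_le_pow_right hr hℓ)
    _ = 𝒮.h0 G * r ^ c * (r ^ a * r ^ i) := by rw [pow_add, pow_add]; ring

end Fermat.Agent.MAZ.SelIneq5.Abstract
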